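import Mathlib
import Fermat.Agent.S28.CuspExp

/-!
# T16 / package C, part 1: convergent power-series expansions in `𝕢 h τ`

`HasQExp h f P` : the function `f : ℍ → ℂ` is given on the whole upper half plane by the power
series `P`, convergent on the open unit disc, in the parameter `𝕢 h τ = exp (2πi τ / h)`.
This is the holomorphic-at-the-cusp special case of `Fermat.Agent.S28.HasCuspExp`; it is closed
under the ring operations, unique, exists for bounded periodic holomorphic functions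
(`hasQExp_of_bounded`), and behaves well under period change (`HasQExp.expand`).
-/

set_option autoImplicit false

noncomputable section

namespace Fermat.Agent.S16.Conj.Expand

open Complex PowerSeries UpperHalfPlane Fermat.Agent.S28
open scoped Real Manifold MatrixGroups

local notation "𝕢" => Function.Periodic.qParam

/-- `f` is given on `ℍ` by the convergent power series `P` in the parameter `𝕢 h τ`. -/
def HasQExp (h : ℝ) (f : ℍ → ℂ) (P : PowerSeries ℂ) : Prop :=
  Conv P ∧ ∀ τ : ℍ, f τ = evalDisc P (𝕢 h τ)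

namespace HasQExp

variable {h : ℝ} {f g : ℍ → ℂ} {P Q : PowerSeries ℂ}

theorem conv (hf : HasQExp h f P) : Conv P := hf.1

theorem eq (hf : HasQExp h f P) (τ : ℍ) : f τ = evalDisc P (𝕢 h τ) := hf.2 τ

theorem hasCuspExp (hf : HasQExp h f P) :
    HasCuspExp h f (HahnSeries.ofPowerSeries ℤ ℂ P) := by
  rw [← lsOf_zero_left]
  exact hasCuspExp_of_evalDisc 0 hf.1 fun τ => by simpa using hf.2 τ

theorem congr (hf : HasQExp h f P) (hfg : ∀ τ, f τ = g τ) : HasQExp h g P :=
  ⟨hf.1, fun τ => by rw [← hfg τ, hf.2 τ]⟩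

theorem add (hh : 0 < h) (hf : HasQExp h f P) (hg : HasQExp h g Q) :
    HasQExp h (f + g) (P + Q) :=
  ⟨hf.1.add hg.1, fun τ => by
    rw [Pi.add_apply, hf.2 τ, hg.2 τ, evalDisc_add hf.1 hg.1 (norm_qParam_lt_one' hh τ)]⟩

theorem mul (hh : 0 < h) (hf : HasQExp h f P) (hg : HasQExp h g Q) :
    HasQExp h (f * g) (P * Q) :=
  ⟨hf.1.mul hg.1, fun τ => by
    rw [Pi.mul_apply, hf.2 τ, hg.2 τ, evalDisc_mul hf.1 hg.1 (norm_qParam_lt_one' hh τ)]⟩

theorem neg (hf : HasQExp h f P) : HasQExp h (-f) (-P) :=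
  ⟨hf.1.neg, fun τ => by rw [Pi.neg_apply, hf.2 τ, evalDisc_neg]⟩

theorem sub (hh : 0 < h) (hf : HasQExp h f P) (hg : HasQExp h g Q) :
    HasQExp h (f - g) (P - Q) :=
  ⟨hf.1.sub hg.1, fun τ => by
    rw [Pi.sub_apply, hf.2 τ, hg.2 τ, evalDisc_sub hf.1 hg.1 (norm_qParam_lt_one' hh τ)]⟩

theorem smul (hf : HasQExp h f P) (c : ℂ) : HasQExp h (c • f) (c • P) :=
  ⟨hf.1.smul c, fun τ => by rw [Pi.smul_apply, hf.2 τ, evalDisc_smul, smul_eq_mul]⟩

theorem pow (hh : 0 < h) (hf : HasQExp h f P) (n : ℕ) : HasQExp h (f ^ n) (P ^ n) :=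
  ⟨hf.1.pow n, fun τ => by
    rw [Pi.pow_apply, hf.2 τ, evalDisc_pow hf.1 n (norm_qParam_lt_one' hh τ)]⟩

end HasQExp

theorem hasQExp_const (h : ℝ) (c : ℂ) : HasQExp h (fun _ => c) (C c) :=
  ⟨conv_C c, fun τ => ((hasSum_C c (𝕢 h τ)).tsum_eq).symm⟩

theorem hasQExp_zero (h : ℝ) : HasQExp h 0 0 := by
  have := hasQExp_const h 0
  rw [map_zero] at this
  exact this

theorem hasQExp_one (h : ℝ) : HasQExp h 1 1 := by
  have := hasQExp_const h 1
  rw [map_one] at this
  exact this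

theorem HasQExp.sum {h : ℝ} (hh : 0 < h) {ι : Type*} (s : Finset ι) {F : ι → ℍ → ℂ}
    {P : ι → PowerSeries ℂ} (hF : ∀ i ∈ s, HasQExp h (F i) (P i)) :
    HasQExp h (∑ i ∈ s, F i) (∑ i ∈ s, P i) := by
  classical
  induction s using Finset.induction_on with
  | empty => simpa using hasQExp_zero h
  | insert a s ha ih =>
    rw [Finset.sum_insert ha, Finset.sum_insert ha]
    exact (hF a (Finset.mem_insert_self a s)).add hh
      (ih fun i hi => hF i (Finset.mem_insert_of_mem hi))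

theorem HasQExp.prod {h : ℝ} (hh : 0 < h) {ι : Type*} (s : Finset ι) {F : ι → ℍ → ℂ}
    {P : ι → PowerSeries ℂ} (hF : ∀ i ∈ s, HasQExp h (F i) (P i)) :
    HasQExp h (∏ i ∈ s, F i) (∏ i ∈ s, P i) := by
  classical
  induction s using Finset.induction_on with
  | empty => simpa using hasQExp_one h
  | insert a s ha ih =>
    rw [Finset.prod_insert ha, Finset.prod_insert ha]
    exact (hF a (Finset.mem_insert_self a s)).mul hh
      (ih fun i hi => hF i (Finset.mem_insert_of_mem hi))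

/-- **Uniqueness** of the expansion. -/
theorem HasQExp.unique {h : ℝ} (hh : 0 < h) {f : ℍ → ℂ} {P Q : PowerSeries ℂ}
    (hP : HasQExp h f P) (hQ : HasQExp h f Q) : P = Q := by
  refine eq_of_evalDisc_eq_punctured hP.1 hQ.1 fun q hq0 hq => ?_
  obtain ⟨τ, rfl⟩ := exists_qParam_eq hh hq hq0
  rw [← hP.2 τ, ← hQ.2 τ]

theorem HasQExp.eq_zero {h : ℝ} (hh : 0 < h) {P : PowerSeries ℂ}
    (hP : HasQExp h 0 P) : P = 0 :=
  hP.unique hh (hasQExp_zero h)

theorem HasQExp.mdifferentiable {h : ℝ} (hh : 0 < h) {f : ℍ → ℂ} {P : PowerSeries ℂ}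
    (hf : HasQExp h f P) : MDiff f :=
  hf.hasCuspExp.mdifferentiable hh

theorem HasQExp.periodic {h : ℝ} {f : ℍ → ℂ} {P : PowerSeries ℂ}
    (hf : HasQExp h f P) : Function.Periodic (f ∘ ofComplex) h :=
  hf.hasCuspExp.periodic

theorem HasQExp.isBoundedAtImInfty {h : ℝ} (hh : 0 < h) {f : ℍ → ℂ} {P : PowerSeries ℂ}
    (hf : HasQExp h f P) : IsBoundedAtImInfty f := by
  have := HasCuspExp.isBoundedAtImInfty (M := 0) hh hf.1 (f := f) fun τ => by simpa using hf.2 τ
  simpa using this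

/-- **Existence**: a holomorphic, `h`-periodic function bounded at `i∞` is given by its
`q`-expansion on the whole upper half plane. -/
theorem hasQExp_of_bounded {h : ℝ} (hh : 0 < h) {f : ℍ → ℂ} (hmd : MDiff f)
    (hper : Function.Periodic (f ∘ ofComplex) h) (hb : IsBoundedAtImInfty f) :
    HasQExp h f (qExpansion h f) := by
  have hsum : ∀ τ : ℍ, HasSum (fun k : ℕ => coeff k (qExpansion h f) * 𝕢 h τ ^ k) (f τ) := by
    intro τ
    have := UpperHalfPlane.hasSum_qExpansion hh hper hmd hb τ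
    simpa [smul_eq_mul] using this
  have hconv : Conv (qExpansion h f) := by
    intro q hq
    by_cases hq0 : q = 0
    · subst hq0
      refine summable_of_ne_finset_zero (s := {0}) fun n hn => ?_
      have : n ≠ 0 := by simpa using hn
      simp [this]
    · obtain ⟨τ, rfl⟩ := exists_qParam_eq hh hq hq0
      exact (hsum τ).summable
  exact ⟨hconv, fun τ => (evalDisc_eq_of_hasSum (hsum τ)).symm⟩

/-- the `q`-expansion of a function with a convergent expansion is that expansion -/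
theorem HasQExp.qExpansion_eq {h : ℝ} (hh : 0 < h) {f : ℍ → ℂ} {P : PowerSeries ℂ}
    (hf : HasQExp h f P) : qExpansion h f = P :=
  (hasQExp_of_bounded hh (hf.mdifferentiable hh) hf.periodic (hf.isBoundedAtImInfty hh)).unique hh hf

/-- **Period change**: an expansion in `𝕢 h` gives an expansion in `𝕢 (h K)`. -/
theorem HasQExp.expand {h : ℝ} {f : ℍ → ℂ} {P : PowerSeries ℂ} (hf : HasQExp h f P)
    (K : ℕ) (hK : K ≠ 0) (hh : 0 < h) : HasQExp (h * K) f (PowerSeries.expand K hK P) := by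
  have hhK : 0 < h * K := mul_pos hh (by exact_mod_cast Nat.pos_of_ne_zero hK)
  refine ⟨conv_expand hf.1 hK, fun τ => ?_⟩
  rw [evalDisc_expand hf.1 hK (norm_qParam_lt_one' hhK τ), qParam_mul_natCast_pow h K hK, hf.2 τ]

theorem HasQExp.expand_one {f : ℍ → ℂ} {P : PowerSeries ℂ} (hf : HasQExp 1 f P)
    (K : ℕ) (hK : K ≠ 0) : HasQExp K f (PowerSeries.expand K hK P) := by
  have := hf.expand K hK one_pos
  simpa using this

/-- **Translation** `τ ↦ τ + b` (in the argument): multiplies the parameter by a root of unity. -/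
theorem HasQExp.rescale {h : ℝ} (hh : 0 < h) {f g : ℍ → ℂ} {P : PowerSeries ℂ}
    (hf : HasQExp h f P) (ξ : ℂ) (hξ : ‖ξ‖ ≤ 1) (w : ℍ → ℍ)
    (hw : ∀ τ, 𝕢 h (w τ) = ξ * 𝕢 h τ) (hg : ∀ τ, g τ = f (w τ)) :
    HasQExp h g (PowerSeries.rescale ξ P) := by
  refine ⟨conv_rescale hf.1 hξ, fun τ => ?_⟩
  rw [evalDisc_rescale hf.1 hξ (norm_qParam_lt_one' hh τ), hg τ, hf.2, hw]

end Fermat.Agent.S16.Conj.Expand
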