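import Mathlib
import Fermat.Agent.S20.Defs

/-!
# T16 / package C, part 0: the `p + 1` cosets of `Γ₀(p)` in `SL(2, ℤ)` and the conjugates of a form

For a prime `p` the right cosets of `Γ₀(p)` are `Γ₀(p)` and `Γ₀(p) · S T^j`, `j < p`.  We package
this as an explicit equivalence `cosetEquiv p : Option (Fin p) ≃ SL(2, ℤ) ⧸ Γ₀(p)` compatible with
the conjugates `Fermat.Agent.S20.cj` (`cj k G ⟦g⟧ = G ∣[k] g⁻¹`):
`cj k G (cosetEquiv p none) = G`, `cj k G (cosetEquiv p (some j)) = G ∣[k] (S * T ^ j)`.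
-/

set_option autoImplicit false

noncomputable section

namespace Fermat.Agent.S16.Conj.Expand

open Matrix ModularGroup MatrixGroups CongruenceSubgroup UpperHalfPlane ModularForm
open Fermat.Agent.S20 (X cj cj_mk cj_slash)

/-- the representative `S T^j` -/
def rep (j : ℕ) : SL(2, ℤ) := S * T ^ j

theorem coe_rep (j : ℕ) : ((rep j : SL(2, ℤ)) : Matrix (Fin 2) (Fin 2) ℤ) = !![0, -1; 1, (j : ℤ)] := by
  rw [rep, Matrix.SpecialLinearGroup.coe_mul, ← zpow_natCast, coe_T_zpow, coe_S]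
  ext a b
  fin_cases a <;> fin_cases b <;> simp [Matrix.mul_apply, Fin.sum_univ_two]

theorem coe_rep_inv (j : ℕ) :
    (((rep j)⁻¹ : SL(2, ℤ)) : Matrix (Fin 2) (Fin 2) ℤ) = !![(j : ℤ), 1; -1, 0] := by
  rw [Matrix.SpecialLinearGroup.SL2_inv_expl]
  simp only [coe_rep]
  ext a b
  fin_cases a <;> fin_cases b <;> simp

/-- the lower left entry of `γ * (S T^j)⁻¹` -/
theorem mul_rep_inv_lower_left (γ : SL(2, ℤ)) (j : ℕ) :
    (γ * (rep j)⁻¹ : SL(2, ℤ)) 1 0 = γ 1 0 * j - γ 1 1 := by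
  rw [Matrix.SpecialLinearGroup.coe_mul, Matrix.mul_apply, Fin.sum_univ_two, coe_rep_inv]
  simp
  ring

/-- the lower left entry of `S T^i (S T^j)⁻¹` -/
theorem rep_mul_rep_inv_lower_left (i j : ℕ) :
    (rep i * (rep j)⁻¹ : SL(2, ℤ)) 1 0 = (j : ℤ) - i := by
  rw [mul_rep_inv_lower_left, coe_rep]
  simp

variable (p : ℕ) [hp : Fact p.Prime]

/-- **Coset decomposition**: every `γ ∈ SL(2, ℤ)` lies in `Γ₀(p)` or in `Γ₀(p) · S T^j`. -/
theorem mem_Gamma0_or_exists (γ : SL(2, ℤ)) :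
    γ ∈ Gamma0 p ∨ ∃ j : Fin p, γ * (rep j)⁻¹ ∈ Gamma0 p := by
  by_cases h : ((γ 1 0 : ℤ) : ZMod p) = 0
  · exact Or.inl (Gamma0_mem.mpr h)
  · right
    have : NeZero p := ⟨hp.out.ne_zero⟩
    let c : ZMod p := ((γ 1 0 : ℤ) : ZMod p)
    let d : ZMod p := ((γ 1 1 : ℤ) : ZMod p)
    let j : ZMod p := d * c⁻¹
    refine ⟨⟨j.val, ZMod.val_lt j⟩, ?_⟩
    rw [Gamma0_mem, mul_rep_inv_lower_left]
    push_cast
    have hj : ((j.val : ℕ) : ZMod p) = j := ZMod.natCast_zmod_val j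
    rw [hj]
    change c * (d * c⁻¹) - d = 0
    have hc : c ≠ 0 := h
    rw [mul_comm d, ← mul_assoc, mul_inv_cancel₀ hc, one_mul, sub_self]

theorem rep_inv_notMem (j : ℕ) : (rep j)⁻¹ ∉ Gamma0 p := by
  rw [Gamma0_mem, coe_rep_inv]
  simp only [of_apply, cons_val', cons_val_zero, cons_val_one, Int.cast_neg, Int.cast_one,
    neg_eq_zero]
  have : Fact (1 < p) := ⟨hp.out.one_lt⟩
  exact one_ne_zero

theorem rep_mul_rep_inv_mem_iff (i j : Fin p) :
    rep i * (rep j)⁻¹ ∈ Gamma0 p ↔ i = j := by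
  rw [Gamma0_mem, rep_mul_rep_inv_lower_left]
  push_cast
  rw [sub_eq_zero]
  constructor
  · intro h
    have := congrArg ZMod.val h
    rw [ZMod.val_natCast, ZMod.val_natCast, Nat.mod_eq_of_lt j.2, Nat.mod_eq_of_lt i.2] at this
    exact Fin.ext this.symm
  · rintro rfl; rfl

/-- the map `Option (Fin p) → SL(2, ℤ) ⧸ Γ₀(p)`: `none ↦ ⟦1⟧`, `some j ↦ ⟦(S T^j)⁻¹⟧` -/
def cosetFun : Option (Fin p) → X p
  | none => ((1 : SL(2, ℤ)) : X p)
  | some j => (((rep j)⁻¹ : SL(2, ℤ)) : X p)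

theorem cosetFun_injective : Function.Injective (cosetFun p) := by
  rintro (_ | i) (_ | j) h
  · rfl
  · exfalso
    simp only [cosetFun] at h
    rw [QuotientGroup.eq] at h
    simp only [inv_one, one_mul] at h
    exact rep_inv_notMem p j h
  · exfalso
    simp only [cosetFun] at h
    rw [QuotientGroup.eq] at h
    simp only [inv_inv, mul_one] at h
    have h' := (Gamma0 p).inv_mem h
    exact rep_inv_notMem p i h'
  · simp only [cosetFun] at h
    rw [QuotientGroup.eq, inv_inv] at h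
    rw [(rep_mul_rep_inv_mem_iff p i j).mp h]

theorem cosetFun_surjective : Function.Surjective (cosetFun p) := by
  intro x
  induction x using QuotientGroup.induction_on with
  | H g =>
    rcases mem_Gamma0_or_exists p g⁻¹ with h | ⟨j, hj⟩
    · refine ⟨none, ?_⟩
      simp only [cosetFun]
      rw [QuotientGroup.eq]
      simpa using (Gamma0 p).inv_mem h
    · refine ⟨some j, ?_⟩
      simp only [cosetFun]
      rw [QuotientGroup.eq, inv_inv]
      have := (Gamma0 p).inv_mem hj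
      simpa [_root_.mul_inv_rev] using this

/-- **The `p + 1` cosets of `Γ₀(p)`**, explicitly. -/
def cosetEquiv : Option (Fin p) ≃ X p :=
  Equiv.ofBijective (cosetFun p) ⟨cosetFun_injective p, cosetFun_surjective p⟩

@[simp] theorem cosetEquiv_none : cosetEquiv p none = ((1 : SL(2, ℤ)) : X p) := rfl

@[simp] theorem cosetEquiv_some (j : Fin p) :
    cosetEquiv p (some j) = (((rep j)⁻¹ : SL(2, ℤ)) : X p) := rfl

instance neZero_of_fact_prime : NeZero p := ⟨hp.out.ne_zero⟩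

theorem card_X : Fintype.card (X p) = p + 1 := by
  rw [← Fintype.card_congr (cosetEquiv p)]
  simp

variable {p}

section conj

variable {k : ℤ} {G : ℍ → ℂ}

theorem cj_cosetEquiv_none (hG : ∀ γ ∈ Gamma0 p, G ∣[k] γ = G) :
    cj k G (cosetEquiv p none) = G := by
  rw [cosetEquiv_none, cj_mk hG]
  simp

theorem cj_cosetEquiv_some (hG : ∀ γ ∈ Gamma0 p, G ∣[k] γ = G) (j : Fin p) :
    cj k G (cosetEquiv p (some j)) = G ∣[k] (rep j) := by
  rw [cosetEquiv_some, cj_mk hG, inv_inv]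

/-- sums over the cosets, explicitly -/
theorem sum_X_eq {M : Type*} [AddCommMonoid M] (F : X p → M) :
    ∑ x, F x = F (cosetEquiv p none) + ∑ j : Fin p, F (cosetEquiv p (some j)) := by
  rw [← Equiv.sum_comp (cosetEquiv p) F, Fintype.sum_option]

/-- products over the cosets, explicitly -/
theorem prod_X_eq {M : Type*} [CommMonoid M] (F : X p → M) :
    ∏ x, F x = F (cosetEquiv p none) * ∏ j : Fin p, F (cosetEquiv p (some j)) := by
  rw [← Equiv.prod_comp (cosetEquiv p) F, Fintype.prod_option]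

/-- every slash translate of a `Γ₀(p)`-invariant function is `G` or some `G ∣ S T^j` -/
theorem slash_eq_or (hG : ∀ γ ∈ Gamma0 p, G ∣[k] γ = G) (γ : SL(2, ℤ)) :
    G ∣[k] γ = G ∨ ∃ j : Fin p, G ∣[k] γ = G ∣[k] (rep j) := by
  rcases mem_Gamma0_or_exists p γ with h | ⟨j, hj⟩
  · exact Or.inl (hG γ h)
  · right
    refine ⟨j, ?_⟩
    have : γ = (γ * (rep j)⁻¹) * rep j := by group
    conv_lhs => rw [this, SlashAction.slash_mul, hG _ hj]

end conj

end Fermat.Agent.S16.Conj.Expand
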