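import Mathlib
import Fermat.Agent.S16.Conj.Expand.Cosets
import Fermat.Agent.S16.Conj.Expand.QExp
import Fermat.Agent.S28.MeroCusp

/-!
# T16 / package C, part 2: forms on `Γ₀(p)`, the other cusp, expansions of all conjugates

* `IsG0 p k G` : `G : ℍ → ℂ` is (the function of) a holomorphic modular form of weight `k` on
  `Γ₀(p)`, unbundled: holomorphic, slash-invariant under `Γ₀(p)`, bounded at `i∞` together with
  `G ∣[k] S` (this gives boundedness at every cusp, `IsG0.bdd_slash`).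
* `other p k G τ = (G ∣[k] S) (p τ)` : the expansion of `G` at the cusp `0`, as a form on `Γ₀(p)`
  (`= p^(-k/2) G|W_p`): `IsG0.other`, `other_other`.
* `IsG0.hasQExp_rep` : `G ∣[k] S T^j` has the expansion `rescale ζ^j B` in `𝕢 p τ = q^(1/p)`, where
  `B` is the `q`-expansion of `other p k G`.
-/

set_option autoImplicit false

noncomputable section

namespace Fermat.Agent.S16.Conj.Expand

open Matrix ModularGroup MatrixGroups CongruenceSubgroup UpperHalfPlane ModularForm Complex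
open Fermat.Agent.S28 Fermat.Agent.S20
open scoped Real Manifold

local notation "𝕢" => Function.Periodic.qParam

/-! ### pointwise formulas for the slash action of `SL(2, ℤ)` -/

theorem slash_apply' {k : ℤ} (f : ℍ → ℂ) (γ : SL(2, ℤ)) (τ : ℍ) :
    (f ∣[k] γ) τ = f (γ • τ) * (((γ 1 0 : ℤ) : ℂ) * τ + ((γ 1 1 : ℤ) : ℂ)) ^ (-k) := by
  rw [SL_slash_apply]
  congr 2

theorem slash_T_pow_apply {k : ℤ} (f : ℍ → ℂ) (j : ℕ) (τ : ℍ) :
    (f ∣[k] (T ^ j)) τ = f ((j : ℝ) +ᵥ τ) := by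
  rw [slash_apply', ← zpow_natCast T j, modular_T_zpow_smul, coe_T_zpow]
  simp

theorem slash_S_apply {k : ℤ} (f : ℍ → ℂ) (τ : ℍ) :
    (f ∣[k] S) τ = f (S • τ) * (τ : ℂ) ^ (-k) := by
  rw [slash_apply']
  simp [ModularGroup.S]

theorem slash_rep_apply {k : ℤ} (f : ℍ → ℂ) (j : ℕ) (τ : ℍ) :
    (f ∣[k] (rep j)) τ = (f ∣[k] S) ((j : ℝ) +ᵥ τ) := by
  rw [rep, SlashAction.slash_mul, slash_T_pow_apply]

theorem T_pow_mem_Gamma0 (N : ℕ) (j : ℕ) : (T ^ j : SL(2, ℤ)) ∈ Gamma0 N := by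
  rw [Gamma0_mem, ← zpow_natCast, coe_T_zpow]
  simp

/-- `S T^N S⁻¹ ∈ Γ₀(N)` -/
theorem S_T_pow_S_inv_mem_Gamma0 (N : ℕ) : (S * T ^ N * S⁻¹ : SL(2, ℤ)) ∈ Gamma0 N := by
  have h : (S * T ^ N * S⁻¹ : SL(2, ℤ)) = rep N * (rep 0)⁻¹ := by
    simp [rep]
  rw [h, Gamma0_mem, rep_mul_rep_inv_lower_left]
  simp

/-- boundedness at `i∞` is preserved by real translations -/
theorem isBoundedAtImInfty_vadd {f : ℍ → ℂ} (hf : IsBoundedAtImInfty f) (a : ℝ) :
    IsBoundedAtImInfty (fun τ : ℍ => f (a +ᵥ τ)) := by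
  rw [UpperHalfPlane.isBoundedAtImInfty_iff] at hf ⊢
  obtain ⟨M, A, h⟩ := hf
  exact ⟨M, A, fun z hz => h _ (by simpa using hz)⟩

/-! ### Forms on `Γ₀(p)` -/

/-- `G` is a holomorphic modular form of weight `k` on `Γ₀(p)` (unbundled). -/
structure IsG0 (p : ℕ) (k : ℤ) (G : ℍ → ℂ) : Prop where
  mdiff : MDiff G
  inv : ∀ γ ∈ Gamma0 p, G ∣[k] γ = G
  bdd : IsBoundedAtImInfty G
  bdd_S : IsBoundedAtImInfty (G ∣[k] S)

namespace IsG0

variable {p : ℕ} {k : ℤ} {G : ℍ → ℂ}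

theorem vadd_nat (hG : IsG0 p k G) (j : ℕ) (τ : ℍ) : G ((j : ℝ) +ᵥ τ) = G τ := by
  rw [← slash_T_pow_apply (k := k) G j τ, hG.inv _ (T_pow_mem_Gamma0 p j)]

theorem periodic (hG : IsG0 p k G) : Function.Periodic (G ∘ ofComplex) (1 : ℝ) := by
  refine MeroCusp.periodic_comp_ofComplex_of_forall fun w hw hw' => ?_
  have := hG.vadd_nat 1 ⟨w, hw⟩
  rw [← this]
  congr 1
  apply UpperHalfPlane.ext
  simp [add_comm]

theorem slash_S_vadd (hG : IsG0 p k G) (τ : ℍ) :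
    (G ∣[k] S) ((p : ℝ) +ᵥ τ) = (G ∣[k] S) τ := by
  rw [← slash_T_pow_apply (k := k) (G ∣[k] S) p τ, ← SlashAction.slash_mul]
  have h : (S * T ^ p : SL(2, ℤ)) = (S * T ^ p * S⁻¹) * S := by group
  rw [h, SlashAction.slash_mul, hG.inv _ (S_T_pow_S_inv_mem_Gamma0 p)]

theorem slash_S_periodic (hG : IsG0 p k G) :
    Function.Periodic ((G ∣[k] S) ∘ ofComplex) (p : ℝ) := by
  refine MeroCusp.periodic_comp_ofComplex_of_forall fun w hw hw' => ?_
  have := hG.slash_S_vadd ⟨w, hw⟩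
  rw [← this]
  refine congrArg (G ∣[k] S) (UpperHalfPlane.ext ?_)
  simp [add_comm]

theorem mdiff_slash (hG : IsG0 p k G) (γ : SL(2, ℤ)) : MDiff (G ∣[k] γ) := by
  rw [SL_slash]
  exact hG.mdiff.slash k _

theorem bdd_rep (hG : IsG0 p k G) (j : ℕ) : IsBoundedAtImInfty (G ∣[k] (rep j)) := by
  have h : G ∣[k] (rep j) = fun τ : ℍ => (G ∣[k] S) ((j : ℝ) +ᵥ τ) := by
    ext τ; exact slash_rep_apply G j τ
  rw [h]
  exact isBoundedAtImInfty_vadd hG.bdd_S _

/-- boundedness at every cusp -/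
theorem bdd_slash [Fact p.Prime] (hG : IsG0 p k G) (γ : SL(2, ℤ)) :
    IsBoundedAtImInfty (G ∣[k] γ) := by
  rcases slash_eq_or hG.inv γ with h | ⟨j, h⟩
  · rw [h]; exact hG.bdd
  · rw [h]; exact hG.bdd_rep j

theorem bdd_cj [Fact p.Prime] (hG : IsG0 p k G) (x : X p) : IsBoundedAtImInfty (cj k G x) :=
  hG.bdd_slash _

end IsG0

/-! ### Dilations of the upper half plane -/

/-- the point `N τ` -/
def dil (N : ℕ) [NeZero N] (τ : ℍ) : ℍ :=
  ⟨(N : ℂ) * τ, by
    have hN : (0 : ℝ) < N := by exact_mod_cast Nat.pos_of_ne_zero (NeZero.ne N)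
    have : ((N : ℂ) * τ).im = N * τ.im := by simp
    rw [this]
    exact mul_pos hN τ.im_pos⟩

/-- the point `τ / N` -/
def dilInv (N : ℕ) [NeZero N] (τ : ℍ) : ℍ :=
  ⟨(τ : ℂ) / N, by
    have hN : (0 : ℝ) < N := by exact_mod_cast Nat.pos_of_ne_zero (NeZero.ne N)
    have : ((τ : ℂ) / N).im = τ.im / N := by
      rw [← Complex.ofReal_natCast, Complex.div_ofReal_im]; rfl
    rw [this]
    exact div_pos τ.im_pos hN⟩

section dil

variable (N : ℕ) [NeZero N]

@[simp] theorem coe_dil (τ : ℍ) : (dil N τ : ℂ) = (N : ℂ) * τ := rfl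

@[simp] theorem coe_dilInv (τ : ℍ) : (dilInv N τ : ℂ) = (τ : ℂ) / N := rfl

theorem natCast_ne_zero' : (N : ℂ) ≠ 0 := by exact_mod_cast NeZero.ne N

@[simp] theorem dil_dilInv (τ : ℍ) : dil N (dilInv N τ) = τ := by
  apply UpperHalfPlane.ext
  have := natCast_ne_zero' N
  simp only [coe_dil, coe_dilInv]
  field_simp

@[simp] theorem dilInv_dil (τ : ℍ) : dilInv N (dil N τ) = τ := by
  apply UpperHalfPlane.ext
  have := natCast_ne_zero' N
  simp only [coe_dil, coe_dilInv]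
  field_simp

theorem im_dil (τ : ℍ) : (dil N τ).im = N * τ.im := by
  change ((N : ℂ) * τ).im = _
  simp

theorem im_dilInv (τ : ℍ) : (dilInv N τ).im = τ.im / N := by
  change ((τ : ℂ) / N).im = _
  rw [← Complex.ofReal_natCast, Complex.div_ofReal_im]; rfl

theorem le_im_dil (τ : ℍ) : τ.im ≤ (dil N τ).im := by
  rw [im_dil]
  have hN : (1 : ℝ) ≤ N := by exact_mod_cast Nat.one_le_iff_ne_zero.mpr (NeZero.ne N)
  nlinarith [τ.im_pos]

theorem dil_vadd (a : ℕ) (τ : ℍ) : dil N ((a : ℝ) +ᵥ τ) = ((N * a : ℕ) : ℝ) +ᵥ dil N τ := by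
  apply UpperHalfPlane.ext
  simp only [coe_dil, coe_vadd]
  push_cast
  ring

theorem mdiff_comp_dil {f : ℍ → ℂ} (hf : MDiff f) : MDiff (fun τ => f (dil N τ)) := by
  rw [UpperHalfPlane.mdifferentiable_iff] at hf ⊢
  have hmaps : Set.MapsTo (fun z : ℂ => (N : ℂ) * z) upperHalfPlaneSet upperHalfPlaneSet := by
    intro z hz
    have hN : (0 : ℝ) < N := by exact_mod_cast Nat.pos_of_ne_zero (NeZero.ne N)
    change 0 < ((N : ℂ) * z).im
    have : ((N : ℂ) * z).im = N * z.im := by simp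
    rw [this]
    exact mul_pos hN hz
  have h1 : DifferentiableOn ℂ (fun z : ℂ => (f ∘ ofComplex) ((N : ℂ) * z)) upperHalfPlaneSet :=
    hf.comp (by fun_prop) hmaps
  refine h1.congr fun z hz => ?_
  simp only [Function.comp_apply]
  rw [ofComplex_apply_of_im_pos hz, ofComplex_apply_of_im_pos (hmaps hz)]
  rfl

theorem mdiff_comp_dilInv {f : ℍ → ℂ} (hf : MDiff f) : MDiff (fun τ => f (dilInv N τ)) := by
  rw [UpperHalfPlane.mdifferentiable_iff] at hf ⊢
  have hmaps : Set.MapsTo (fun z : ℂ => z / (N : ℂ)) upperHalfPlaneSet upperHalfPlaneSet := by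
    intro z hz
    have hN : (0 : ℝ) < N := by exact_mod_cast Nat.pos_of_ne_zero (NeZero.ne N)
    change 0 < (z / (N : ℂ)).im
    have : (z / (N : ℂ)).im = z.im / N := by
      rw [← Complex.ofReal_natCast, Complex.div_ofReal_im]
    rw [this]
    exact div_pos hz hN
  have h1 : DifferentiableOn ℂ (fun z : ℂ => (f ∘ ofComplex) (z / (N : ℂ))) upperHalfPlaneSet :=
    hf.comp (by fun_prop) hmaps
  refine h1.congr fun z hz => ?_
  simp only [Function.comp_apply]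
  rw [ofComplex_apply_of_im_pos hz, ofComplex_apply_of_im_pos (hmaps hz)]
  rfl

theorem isBoundedAtImInfty_comp_dil {f : ℍ → ℂ} (hf : IsBoundedAtImInfty f) :
    IsBoundedAtImInfty (fun τ => f (dil N τ)) := by
  rw [UpperHalfPlane.isBoundedAtImInfty_iff] at hf ⊢
  obtain ⟨M, A, h⟩ := hf
  exact ⟨M, A, fun z hz => h _ (hz.trans (le_im_dil N z))⟩

theorem isBoundedAtImInfty_comp_dilInv {f : ℍ → ℂ} (hf : IsBoundedAtImInfty f) :
    IsBoundedAtImInfty (fun τ => f (dilInv N τ)) := by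
  rw [UpperHalfPlane.isBoundedAtImInfty_iff] at hf ⊢
  obtain ⟨M, A, h⟩ := hf
  refine ⟨M, N * A, fun z hz => h _ ?_⟩
  rw [im_dilInv]
  have hN : (0 : ℝ) < N := by exact_mod_cast Nat.pos_of_ne_zero (NeZero.ne N)
  rw [le_div_iff₀ hN]
  linarith

theorem qParam_dilInv (τ : ℍ) : 𝕢 1 (dilInv N τ) = 𝕢 (N : ℝ) τ := by
  unfold Function.Periodic.qParam
  congr 1
  simp only [coe_dilInv]
  push_cast
  ring

end dil

/-! ### The other cusp -/

/-- `other p k G τ = (G ∣[k] S) (p τ)`: the form on `Γ₀(p)` whose `q`-expansion is the expansion of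
`G` at the cusp `0` (in the parameter `q^(1/p)`); up to the factor `p^(k/2)` it is `G|W_p`. -/
def other (p : ℕ) [NeZero p] (k : ℤ) (G : ℍ → ℂ) : ℍ → ℂ := fun τ => (G ∣[k] S) (dil p τ)

section other

variable {p : ℕ} [NeZero p] {k : ℤ} {G : ℍ → ℂ}

theorem other_apply (τ : ℍ) : other p k G τ = (G ∣[k] S) (dil p τ) := rfl

theorem slash_S_eq_other (τ : ℍ) : (G ∣[k] S) τ = other p k G (dilInv p τ) := by
  rw [other_apply, dil_dilInv]

/-- the companion matrix `[[a, p b], [c / p, d]]` of `γ = [[a, b], [c, d]] ∈ Γ₀(p)` -/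
def companion (γ : SL(2, ℤ)) (c' : ℤ) (hc : γ 1 0 = p * c') : SL(2, ℤ) :=
  ⟨!![γ 0 0, p * γ 0 1; c', γ 1 1], by
    rw [Matrix.det_fin_two_of]
    have := γ.det_coe
    rw [Matrix.det_fin_two, hc] at this
    linarith⟩

theorem dil_smul (γ : SL(2, ℤ)) (c' : ℤ) (hc : γ 1 0 = p * c') (τ : ℍ) :
    dil p (γ • τ) = companion γ c' hc • dil p τ := by
  apply UpperHalfPlane.ext
  rw [coe_dil, coe_specialLinearGroup_apply, coe_specialLinearGroup_apply]
  simp only [companion, algebraMap_int_eq, Int.coe_castRingHom, Complex.ofReal_intCast, coe_dil,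
    Matrix.SpecialLinearGroup.coe_mk, of_apply, cons_val', cons_val_zero, cons_val_one,
    cons_val_fin_one]
  have hden : ((γ 1 0 : ℤ) : ℂ) * τ + ((γ 1 1 : ℤ) : ℂ) ≠ 0 := by
    have := denom_ne_zero γ τ
    simpa [ModularGroup.denom_apply] using this
  have hc' : ((γ 1 0 : ℤ) : ℂ) = (p : ℂ) * (c' : ℂ) := by rw [hc]; push_cast; ring
  have hden' : (c' : ℂ) * ((p : ℂ) * τ) + ((γ 1 1 : ℤ) : ℂ) ≠ 0 := by
    rw [← mul_assoc, mul_comm (c' : ℂ), ← hc']; exact hden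
  rw [hc'] at hden ⊢
  push_cast
  field_simp

omit [NeZero p] in
theorem S_companion_S_inv_mem (γ : SL(2, ℤ)) (c' : ℤ) (hc : γ 1 0 = p * c') :
    S * companion γ c' hc * S⁻¹ ∈ Gamma0 p := by
  have h : (S * companion γ c' hc * S⁻¹ : SL(2, ℤ)) = (rep 0 * companion γ c' hc) * (rep 0)⁻¹ := by
    simp [rep]
  have e : (rep 0 * companion γ c' hc : SL(2, ℤ)) 1 1 = p * γ 0 1 := by
    rw [Matrix.SpecialLinearGroup.coe_mul, Matrix.mul_apply, Fin.sum_univ_two, coe_rep]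
    simp [companion]
  rw [h, Gamma0_mem, mul_rep_inv_lower_left, e]
  simp

/-- **`Γ₀(p)`-invariance of the expansion at the other cusp.** -/
theorem other_slash (hG : ∀ γ ∈ Gamma0 p, G ∣[k] γ = G) (γ : SL(2, ℤ)) (hγ : γ ∈ Gamma0 p) :
    other p k G ∣[k] γ = other p k G := by
  obtain ⟨c', hc⟩ : ∃ c' : ℤ, γ 1 0 = p * c' := by
    rw [Gamma0_mem] at hγ
    exact (ZMod.intCast_zmod_eq_zero_iff_dvd _ _).mp hγ
  ext τ
  have h1 : (G ∣[k] S) ∣[k] companion γ c' hc = G ∣[k] S := by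
    rw [← SlashAction.slash_mul]
    have h : (S * companion γ c' hc : SL(2, ℤ)) = (S * companion γ c' hc * S⁻¹) * S := by group
    rw [h, SlashAction.slash_mul, hG _ (S_companion_S_inv_mem γ c' hc)]
  have h2 := congrFun h1 (dil p τ)
  rw [slash_apply'] at h2
  rw [slash_apply', other_apply, other_apply, dil_smul γ c' hc, ← h2]
  congr 2
  simp only [companion, Matrix.SpecialLinearGroup.coe_mk, of_apply, cons_val', cons_val_zero,
    cons_val_one, cons_val_fin_one, coe_dil]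
  rw [hc]
  push_cast
  ring

theorem S_smul_dil_S_smul (τ : ℍ) : S • dil p (S • τ) = dilInv p τ := by
  apply UpperHalfPlane.ext
  have hN := natCast_ne_zero' p
  have hτ : (τ : ℂ) ≠ 0 := ne_zero τ
  rw [modular_S_smul, modular_S_smul]
  simp only [coe_dilInv, coe_dil]
  change (-((p : ℂ) * (-(τ : ℂ))⁻¹))⁻¹ = (τ : ℂ) / p
  field_simp

/-- the expansion of `other p k G` at the other cusp is `G` again, up to the factor `(-p)^(-k)` -/
theorem other_slash_S (τ : ℍ) :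
    (other p k G ∣[k] S) τ = (-(p : ℂ)) ^ (-k) * G (dilInv p τ) := by
  have hτ : (τ : ℂ) ≠ 0 := ne_zero τ
  rw [slash_S_apply, other_apply, slash_S_apply, S_smul_dil_S_smul, mul_assoc, ← mul_zpow,
    mul_comm]
  congr 2
  rw [modular_S_smul]
  simp only [coe_dil]
  change (p : ℂ) * (-(τ : ℂ))⁻¹ * τ = -(p : ℂ)
  field_simp

theorem other_other (τ : ℍ) :
    other p k (other p k G) τ = (-(p : ℂ)) ^ (-k) * G τ := by
  rw [other_apply, other_slash_S, dilInv_dil]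

theorem other_vadd_one (hG : IsG0 p k G) (τ : ℍ) :
    other p k G ((1 : ℝ) +ᵥ τ) = other p k G τ := by
  have h := dil_vadd p 1 τ
  simp only [Nat.cast_one, mul_one] at h
  rw [other_apply, h, hG.slash_S_vadd, other_apply]

theorem IsG0.other (hG : IsG0 p k G) : IsG0 p k (Fermat.Agent.S16.Conj.Expand.other p k G) where
  mdiff := mdiff_comp_dil p (hG.mdiff_slash S)
  inv := other_slash hG.inv
  bdd := isBoundedAtImInfty_comp_dil p hG.bdd_S
  bdd_S := by
    have h : Fermat.Agent.S16.Conj.Expand.other p k G ∣[k] S =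
        fun τ => (-(p : ℂ)) ^ (-k) * G (dilInv p τ) := by
      ext τ; exact other_slash_S τ
    rw [h]
    exact (Filter.const_boundedAtFilter _ _).mul (isBoundedAtImInfty_comp_dilInv p hG.bdd)

end other

end Fermat.Agent.S16.Conj.Expand
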