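import Mathlib
import Fermat.Agent.S16.Conj.Expand.Forms

/-!
# T16 / package C, part 3: expansions of all conjugates, the trace relation in weight 2,
symmetric functions of the conjugates as level-one forms

Notation: `p` prime, `G` a form of weight `k` on `Γ₀(p)` (`IsG0 p k G`),
`aSer G` its `q`-expansion at `∞`, `bSer p k G` the `q`-expansion of `other p k G`
(the expansion of `G ∣[k] S` in `q^(1/p)`), `zeta p = exp (2πi/p)`.
-/

set_option autoImplicit false

noncomputable section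

namespace Fermat.Agent.S16.Conj.Expand

open Matrix ModularGroup MatrixGroups CongruenceSubgroup ModularForm Complex
open UpperHalfPlane hiding I
open Fermat.Agent.S28 Fermat.Agent.S20
open scoped Real Manifold

local notation "𝕢" => Function.Periodic.qParam

/-- the `q`-expansion at `∞` -/
def aSer (G : ℍ → ℂ) : PowerSeries ℂ := qExpansion 1 G

/-- the expansion at the cusp `0` (in `q^(1/p)`), i.e. the `q`-expansion of `other p k G` -/
def bSer (p : ℕ) [NeZero p] (k : ℤ) (G : ℍ → ℂ) : PowerSeries ℂ := qExpansion 1 (other p k G)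

/-- `ζ_p = exp (2πi/p)` -/
def zeta (p : ℕ) : ℂ := Complex.exp (2 * π * I / p)

theorem norm_zeta (p : ℕ) : ‖zeta p‖ = 1 := by
  rw [zeta, Complex.norm_exp]
  have : (2 * (π : ℂ) * I / p).re = 0 := by
    have : (2 * (π : ℂ) * I / p) = ((2 * π / p : ℝ) : ℂ) * I := by push_cast; ring
    rw [this]; simp
  rw [this, Real.exp_zero]

theorem zeta_pow_self (p : ℕ) [NeZero p] : zeta p ^ p = 1 := by
  rw [zeta, ← Complex.exp_nat_mul]
  have hp : (p : ℂ) ≠ 0 := natCast_ne_zero' p
  rw [show (p : ℂ) * (2 * π * I / p) = 2 * π * I by field_simp]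
  exact Complex.exp_two_pi_mul_I

theorem zeta_ne_zero (p : ℕ) : zeta p ≠ 0 := Complex.exp_ne_zero _

section

variable {p : ℕ} [NeZero p] {k : ℤ} {G : ℍ → ℂ}

omit [NeZero p] in
theorem IsG0.hasQExp (hG : IsG0 p k G) : HasQExp 1 G (aSer G) :=
  hasQExp_of_bounded one_pos hG.mdiff hG.periodic hG.bdd

theorem IsG0.hasQExp_other (hG : IsG0 p k G) :
    HasQExp 1 (Fermat.Agent.S16.Conj.Expand.other p k G) (bSer p k G) :=
  (IsG0.other hG).hasQExp

theorem natCast_pos' (p : ℕ) [NeZero p] : (0 : ℝ) < p := by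
  exact_mod_cast Nat.pos_of_ne_zero (NeZero.ne p)

/-- the expansion of `G` in `q^(1/p)` -/
theorem IsG0.hasQExp_inf (hG : IsG0 p k G) :
    HasQExp p G (PowerSeries.expand p (NeZero.ne p) (aSer G)) :=
  hG.hasQExp.expand_one p (NeZero.ne p)

/-- the expansion of `G ∣[k] S` in `q^(1/p)` -/
theorem IsG0.hasQExp_slash_S (hG : IsG0 p k G) : HasQExp p (G ∣[k] S) (bSer p k G) := by
  refine ⟨hG.hasQExp_other.1, fun τ => ?_⟩
  rw [slash_S_eq_other (p := p), hG.hasQExp_other.2, qParam_dilInv]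

theorem qParam_vadd_nat (j : ℕ) (τ : ℍ) :
    𝕢 (p : ℝ) (((j : ℝ) +ᵥ τ : ℍ) : ℂ) = zeta p ^ j * 𝕢 (p : ℝ) τ := by
  unfold Function.Periodic.qParam zeta
  rw [← Complex.exp_nat_mul, ← Complex.exp_add]
  congr 1
  have hp : (p : ℂ) ≠ 0 := natCast_ne_zero' p
  rw [coe_vadd]
  push_cast
  field_simp

/-- **the expansion of the conjugate `G ∣[k] S T^j`** in `q^(1/p)` -/
theorem IsG0.hasQExp_rep (hG : IsG0 p k G) (j : ℕ) :
    HasQExp p (G ∣[k] (rep j)) (PowerSeries.rescale (zeta p ^ j) (bSer p k G)) := by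
  refine hG.hasQExp_slash_S.rescale (natCast_pos' p) (zeta p ^ j) ?_ (fun τ => (j : ℝ) +ᵥ τ)
    (fun τ => qParam_vadd_nat j τ) (fun τ => slash_rep_apply G j τ)
  rw [norm_pow, norm_zeta, one_pow]

end

/-! ### The family of expansions of the conjugates -/

section fam

variable {p : ℕ} [hp : Fact p.Prime] {k : ℤ} {G : ℍ → ℂ}

/-- the expansions of the conjugates `cj k G x` in `q^(1/p)`:
`expand p (aSer G)` at `x = ∞` and `rescale ζ^j (bSer p k G)` at `x = [S T^j]`. -/
def expFam (p : ℕ) [Fact p.Prime] (k : ℤ) (G : ℍ → ℂ) (x : X p) : PowerSeries ℂ :=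
  match (cosetEquiv p).symm x with
  | none => PowerSeries.expand p (NeZero.ne p) (aSer G)
  | some j => PowerSeries.rescale (zeta p ^ (j : ℕ)) (bSer p k G)

theorem expFam_none :
    expFam p k G (cosetEquiv p none) = PowerSeries.expand p (NeZero.ne p) (aSer G) := by
  simp only [expFam, Equiv.symm_apply_apply]

theorem expFam_some (j : Fin p) :
    expFam p k G (cosetEquiv p (some j)) =
      PowerSeries.rescale (zeta p ^ (j : ℕ)) (bSer p k G) := by
  simp only [expFam, Equiv.symm_apply_apply]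

/-- **every conjugate has the expansion `expFam` in `q^(1/p)`** -/
theorem IsG0.hasQExp_cj (hG : IsG0 p k G) (x : X p) :
    HasQExp p (cj k G x) (expFam p k G x) := by
  obtain ⟨o, rfl⟩ := (cosetEquiv p).surjective x
  cases o with
  | none =>
    rw [cj_cosetEquiv_none hG.inv, expFam_none]
    exact hG.hasQExp_inf
  | some j =>
    rw [cj_cosetEquiv_some hG.inv, expFam_some]
    exact hG.hasQExp_rep j

end fam

/-! ### Level-one forms from invariant functions -/

/-- A holomorphic function on `ℍ`, slash-invariant of weight `k` under `SL(2, ℤ)` and bounded at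
`i∞`, as a level-one modular form. -/
def levelOneMk (k : ℤ) (f : ℍ → ℂ) (hf : MDiff f)
    (hinv : ∀ γ : SL(2, ℤ), f ∣[k] γ = f) (hbdd : IsBoundedAtImInfty f) : ModularForm 𝒮ℒ k where
  toFun := f
  slash_action_eq' := fun _ ⟨γ, hγ⟩ => hγ ▸ hinv γ
  holo' := hf
  bdd_at_cusps' {c} hc := by
    rw [Subgroup.IsArithmetic.isCusp_iff_isCusp_SL2Z] at hc
    rw [OnePoint.isBoundedAt_iff_forall_SL2Z hc]
    intro γ _
    rw [hinv γ]
    exact hbdd

@[simp] theorem coe_levelOneMk (k : ℤ) (f : ℍ → ℂ) (hf : MDiff f)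
    (hinv : ∀ γ : SL(2, ℤ), f ∣[k] γ = f) (hbdd : IsBoundedAtImInfty f) :
    (levelOneMk k f hf hinv hbdd : ℍ → ℂ) = f := rfl

theorem levelOne_weight_two_eq_zero (f : ModularForm 𝒮ℒ 2) : f = 0 :=
  rank_zero_iff_forall_zero.mp levelOne_weight_two_rank_zero f

/-- a holomorphic `SL(2, ℤ)`-invariant function of weight `2`, bounded at `i∞`, vanishes -/
theorem eq_zero_of_weight_two {f : ℍ → ℂ} (hf : MDiff f)
    (hinv : ∀ γ : SL(2, ℤ), f ∣[(2 : ℤ)] γ = f) (hbdd : IsBoundedAtImInfty f) : f = 0 := by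
  have := levelOne_weight_two_eq_zero (levelOneMk 2 f hf hinv hbdd)
  have h2 := congrArg (fun F : ModularForm 𝒮ℒ 2 => (F : ℍ → ℂ)) this
  simpa using h2

/-! ### The trace to level one -/

section trace

variable {p : ℕ} [hp : Fact p.Prime] {k : ℤ} {G : ℍ → ℂ}

/-- the trace `∑ₓ G ∣[k] γₓ` is `SL(2, ℤ)`-invariant -/
theorem sum_cj_slash (hG : ∀ γ ∈ Gamma0 p, G ∣[k] γ = G) (γ : SL(2, ℤ)) :
    (∑ x : X p, cj k G x) ∣[k] γ = ∑ x : X p, cj k G x := by
  rw [SlashAction.sum_slash]
  simp only [cj_slash hG]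
  exact Equiv.sum_comp (MulAction.toPerm γ⁻¹ : Equiv.Perm (X p)) (fun x => cj k G x)

theorem mdiff_sum_cj (hG : IsG0 p k G) : MDiff (∑ x : X p, cj k G x) := by
  have : ∀ s : Finset (X p), MDiff (∑ x ∈ s, cj k G x) := by
    intro s
    classical
    induction s using Finset.induction_on with
    | empty =>
      simp only [Finset.sum_empty]
      exact mdifferentiable_const
    | insert a s ha ih =>
      rw [Finset.sum_insert ha]
      exact (mdiff_cj hG.mdiff a).add ih
  exact this _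

theorem IsG0.hasQExp_sum_cj (hG : IsG0 p k G) :
    HasQExp p (∑ x : X p, cj k G x) (∑ x : X p, expFam p k G x) :=
  HasQExp.sum (natCast_pos' p) Finset.univ fun x _ => hG.hasQExp_cj x

/-- **the trace of a weight-2 form on `Γ₀(p)` vanishes** (`M₂(SL(2, ℤ)) = 0`) -/
theorem IsG0.sum_cj_eq_zero (hG : IsG0 p 2 G) : ∑ x : X p, cj 2 G x = 0 :=
  eq_zero_of_weight_two (mdiff_sum_cj hG) (sum_cj_slash hG.inv)
    (hG.hasQExp_sum_cj.isBoundedAtImInfty (natCast_pos' p))

theorem IsG0.sum_expFam_eq_zero (hG : IsG0 p 2 G) : ∑ x : X p, expFam p 2 G x = 0 := by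
  have h := hG.hasQExp_sum_cj
  rw [hG.sum_cj_eq_zero] at h
  exact h.eq_zero (natCast_pos' p)

/-- **trace relation**, first form: `a_m = - p b_{pm}` -/
theorem IsG0.coeff_aSer (hG : IsG0 p 2 G) (m : ℕ) :
    PowerSeries.coeff m (aSer G) = -(p : ℂ) * PowerSeries.coeff (p * m) (bSer p 2 G) := by
  have h := hG.sum_expFam_eq_zero
  rw [sum_X_eq, expFam_none] at h
  simp only [expFam_some] at h
  have h2 := congrArg (PowerSeries.coeff (p * m)) h
  rw [map_add, map_sum, PowerSeries.coeff_expand_mul, map_zero] at h2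
  have h3 : ∀ j : Fin p, PowerSeries.coeff (p * m)
      (PowerSeries.rescale (zeta p ^ (j : ℕ)) (bSer p 2 G)) =
      PowerSeries.coeff (p * m) (bSer p 2 G) := by
    intro j
    rw [PowerSeries.coeff_rescale, ← pow_mul, mul_comm (j : ℕ), mul_assoc, pow_mul,
      zeta_pow_self, one_pow, one_mul]
  rw [Finset.sum_congr rfl fun j _ => h3 j, Finset.sum_const, Finset.card_univ,
    Fintype.card_fin, nsmul_eq_mul] at h2
  linear_combination h2

end trace

end Fermat.Agent.S16.Conj.Expand
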