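import Mathlib
import Fermat.Agent.S16.Conj.Expand
import Fermat.Agent.S16.U2Seven.Main
import Fermat.Agent.S16.NoConst

/-!
# T16 / U2b-7 glue (helper71): `NoConstInt p 2 3` for `p ≡ 7 mod 8`

The conjugates of `c₀⁻¹ • G` (`G ∈ M₂(Γ₀(p))` with `q`-expansion `c₀ + 8 (…)`, `c₀` odd) satisfy the
hypotheses of `U2Seven.false_of_conjugates`, over any subring `R ⊆ ℂ` containing `ζ_p` and the
inverses of all odd integers, and not containing `1/2`.
-/

set_option autoImplicit false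

noncomputable section

namespace Fermat.Agent.S16.Conj.Expand

open Matrix ModularGroup MatrixGroups CongruenceSubgroup ModularForm Complex
open UpperHalfPlane hiding I
open Fermat.Agent.S28 Fermat.Agent.S20 Fermat.Agent.S23 Fermat.Agent.S20.Puiseux
open Fermat.Agent.S16.U2Seven
open scoped Real Manifold

local notation "𝕢" => Function.Periodic.qParam

/-- a function given by a series in `𝕢 p` is `p`-periodic -/
theorem HasQExp.vadd_natCast {p : ℕ} [NeZero p] {f : ℍ → ℂ} {P : PowerSeries ℂ}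
    (hf : HasQExp p f P) (τ : ℍ) : f ((p : ℝ) +ᵥ τ) = f τ := by
  rw [hf.2, hf.2, qParam_vadd_nat, zeta_pow_self, one_mul]

theorem IsG0.isPuiseux_conj {p : ℕ} [NeZero p] {k : ℤ} {G : ℍ → ℂ} (hG : IsG0 p k G)
    (x : Idx p) : IsPuiseux p (Conj.conj k p G x) where
  mdiff := mdiff_conj hG.mdiff x
  bdd := hG.isBoundedAtImInfty_conj x
  per := (hG.hasQExp_conj x).vadd_natCast

/-- every power series is `1 + 8 w` -/
theorem eq_one_add_eight_mul (P : PowerSeries ℂ) :
    P = 1 + 8 * PowerSeries.mk fun n => (PowerSeries.coeff n P - PowerSeries.coeff n 1) / 8 := by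
  ext n
  have h8 : (8 : PowerSeries ℂ) = PowerSeries.C (8 : ℂ) := (map_ofNat PowerSeries.C 8).symm
  rw [map_add, h8, PowerSeries.coeff_C_mul, PowerSeries.coeff_mk]
  ring

section main

variable (p : ℕ) [hp : Fact p.Prime]

/-- **U2b-7 glue**: no weight-2 form on `Γ₀(p)`, `p ≡ 7 mod 8`, has `q`-expansion
`c₀ + 8 (integral)` with `c₀` odd. -/
theorem noConstInt_two_three_of_ring (h8 : p % 8 = 7) (R : Subring ℂ) (h2 : (2 : ℂ)⁻¹ ∉ R)
    (hz : zeta p ∈ R) (hodd : ∀ m : ℤ, ¬ (2 : ℤ) ∣ m → ((m : ℂ))⁻¹ ∈ R) :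
    Fermat.Agent.S16.NoConstInt p 2 3 := by
  rintro ⟨G, ⟨c₀, hc₀, h0⟩, hk⟩
  have hp0 : (p : ℂ) ≠ 0 := natCast_ne_zero' p
  have hc0 : (c₀ : ℂ) ≠ 0 := by
    have : c₀ ≠ 0 := by
      rintro rfl
      exact hc₀ (dvd_zero _)
    exact_mod_cast this
  have hcinv : ((c₀ : ℂ))⁻¹ ∈ R := hodd c₀ hc₀
  have hpinv : ((p : ℂ))⁻¹ ∈ R := by
    have := hodd (p : ℤ) (by
      intro hd
      have : (2 : ℕ) ∣ p := by exact_mod_cast hd
      omega)
    simpa using this
  -- the normalised form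
  set c : ℂ := ((c₀ : ℂ))⁻¹ with hc
  have hG : IsG0 p 2 (⇑(c • G)) := IsG0.of_modularForm (c • G)
  have hGa : qExpansion 1 (⇑(c • G)) = c • qExpansion 1 (⇑G) := by
    have h1 : HasQExp 1 (c • ⇑G) (c • aSer (⇑G)) := (IsG0.of_modularForm G).hasQExp.smul c
    exact h1.qExpansion_eq one_pos
  -- the coefficients of the normalised form
  have ha0 : PowerSeries.coeff 0 (qExpansion 1 (⇑(c • G))) = 1 := by
    rw [hGa, PowerSeries.coeff_smul, h0, smul_eq_mul, hc, inv_mul_cancel₀ hc0]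
  have han : ∀ n : ℕ, 1 ≤ n → ∃ d ∈ R, PowerSeries.coeff n (qExpansion 1 (⇑(c • G))) = 8 * d := by
    intro n hn
    obtain ⟨d, hd⟩ := hk n hn
    refine ⟨c * d, R.mul_mem hcinv (intCast_mem R d), ?_⟩
    rw [hGa, PowerSeries.coeff_smul, hd, smul_eq_mul]
    push_cast
    ring
  -- apply the abstract theorem
  have : NeZero p := ⟨hp.out.ne_zero⟩
  refine false_of_conjugates R h2 (ι := Idx p) p hp.out.pos
    (fun x => Conj.conj 2 p (⇑(c • G)) x) (fun x => hG.isPuiseux_conj x)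
    (fun γ => exists_perm_conj_slash hG.inv γ) (fun x => ?_)
  refine ⟨_, ?_, (hG.qExpansion_conj x).trans (eq_one_add_eight_mul _)⟩
  rw [mem_coeffSubring]
  intro n
  rw [PowerSeries.coeff_mk]
  cases x with
  | none =>
    rw [coeff_expSer_none]
    rcases Nat.eq_zero_or_pos n with rfl | hn
    · simp only [dvd_zero, if_true, Nat.zero_div, ha0, PowerSeries.coeff_zero_one, sub_self,
        zero_div]
      exact R.zero_mem
    · rw [PowerSeries.coeff_one, if_neg hn.ne', sub_zero]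
      split_ifs with hpn
      · obtain ⟨d, hdR, hd⟩ := han (n / p) (Nat.div_pos (Nat.le_of_dvd hn hpn) hp.out.pos)
        rw [hd, mul_div_cancel_left₀ _ (by norm_num : (8 : ℂ) ≠ 0)]
        exact hdR
      · rw [zero_div]
        exact R.zero_mem
  | some j =>
    rw [hG.coeff_expSer_some]
    rcases Nat.eq_zero_or_pos n with rfl | hn
    · -- `(-1/p - 1)/8 = -((p+1)/8)/p`
      obtain ⟨t, ht⟩ : ∃ t : ℕ, p = 8 * t + 7 := ⟨p / 8, by omega⟩
      have : (-(zeta p ^ ((j : ℕ) * 0) *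
          PowerSeries.coeff (p * 0) (qExpansion 1 (⇑(c • G))) / (p : ℂ)) -
          PowerSeries.coeff 0 (1 : PowerSeries ℂ)) / 8 = -(((t : ℂ) + 1) * ((p : ℂ))⁻¹) := by
        rw [mul_zero, mul_zero, pow_zero, ha0, PowerSeries.coeff_zero_one, one_mul]
        have hpt : (p : ℂ) = 8 * (t : ℂ) + 7 := by exact_mod_cast congrArg (Nat.cast (R := ℂ)) ht
        field_simp
        rw [hpt]
        ring
      rw [this]
      exact R.neg_mem (R.mul_mem (R.add_mem (natCast_mem R t) R.one_mem) hpinv)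
    · obtain ⟨d, hdR, hd⟩ := han (p * n) (Nat.mul_pos hp.out.pos hn)
      rw [PowerSeries.coeff_one, if_neg hn.ne', sub_zero, hd]
      have : -(zeta p ^ ((j : ℕ) * n) * (8 * d) / (p : ℂ)) / 8 =
          -(zeta p ^ ((j : ℕ) * n) * d * ((p : ℂ))⁻¹) := by
        field_simp
      rw [this]
      exact R.neg_mem (R.mul_mem (R.mul_mem (R.pow_mem hz _) hdR) hpinv)

end main

end Fermat.Agent.S16.Conj.Expand
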