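import Mathlib
import Fermat.Agent.S16.Conj.Expand.U2Input

/-!
# T16 / U2b-7 (helper71): `NoConstInt p 2 3` for every prime `p ≡ 7 mod 8`

`oddIntRing` is the subring of `ℂ` of numbers `z` with `m z` integral over `ℤ` for some odd `m`
(the integral closure of `ℤ_(2)` in `ℂ`).  It contains all roots of unity and the inverses of
the odd integers, but not `1/2`.
-/

set_option autoImplicit false

noncomputable section

namespace Fermat.Agent.S16.Conj.Expand

open Complex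

/-- the subring of `ℂ` of numbers `z` such that `m z` is an algebraic integer for some odd
integer `m` -/
def oddIntRing : Subring ℂ where
  carrier := {z | ∃ m : ℤ, Odd m ∧ IsIntegral ℤ ((m : ℂ) * z)}
  mul_mem' := by
    rintro a b ⟨m, hm, ha⟩ ⟨n, hn, hb⟩
    refine ⟨m * n, hm.mul hn, ?_⟩
    have : ((m * n : ℤ) : ℂ) * (a * b) = ((m : ℂ) * a) * ((n : ℂ) * b) := by push_cast; ring
    rw [this]
    exact ha.mul hb
  one_mem' := ⟨1, odd_one, by simpa using isIntegral_one⟩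
  add_mem' := by
    rintro a b ⟨m, hm, ha⟩ ⟨n, hn, hb⟩
    refine ⟨m * n, hm.mul hn, ?_⟩
    have : ((m * n : ℤ) : ℂ) * (a + b) = (n : ℂ) * ((m : ℂ) * a) + (m : ℂ) * ((n : ℂ) * b) := by
      push_cast; ring
    rw [this]
    exact ((isIntegral_algebraMap (R := ℤ) (x := n)).mul ha).add
      ((isIntegral_algebraMap (R := ℤ) (x := m)).mul hb)
  zero_mem' := ⟨1, odd_one, by simpa using isIntegral_zero⟩
  neg_mem' := by
    rintro a ⟨m, hm, ha⟩
    refine ⟨m, hm, ?_⟩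
    rw [mul_neg]
    exact ha.neg

theorem mem_oddIntRing {z : ℂ} :
    z ∈ oddIntRing ↔ ∃ m : ℤ, Odd m ∧ IsIntegral ℤ ((m : ℂ) * z) := Iff.rfl

theorem isIntegral_mem_oddIntRing {z : ℂ} (hz : IsIntegral ℤ z) : z ∈ oddIntRing :=
  ⟨1, odd_one, by simpa using hz⟩

theorem inv_odd_mem_oddIntRing (m : ℤ) (hm : ¬ (2 : ℤ) ∣ m) : ((m : ℂ))⁻¹ ∈ oddIntRing := by
  have hm0 : (m : ℂ) ≠ 0 := by
    have : m ≠ 0 := by
      rintro rfl
      exact hm (dvd_zero _)
    exact_mod_cast this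
  refine ⟨m, Int.not_even_iff_odd.mp (fun h => hm (even_iff_two_dvd.mp h)), ?_⟩
  rw [mul_inv_cancel₀ hm0]
  exact isIntegral_one

theorem two_inv_notMem_oddIntRing : (2 : ℂ)⁻¹ ∉ oddIntRing := by
  rintro ⟨m, hm, hint⟩
  -- `m / 2` is a rational algebraic integer, hence an integer
  have h1 : (m : ℂ) * (2 : ℂ)⁻¹ = algebraMap ℚ ℂ ((m : ℚ) / 2) := by
    simp [div_eq_mul_inv]
  rw [h1] at hint
  have h2 : IsIntegral ℤ ((m : ℚ) / 2) :=
    (isIntegral_algebraMap_iff (algebraMap ℚ ℂ).injective).mp hint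
  obtain ⟨n, hn⟩ := IsIntegrallyClosed.isIntegral_iff.mp h2
  have h3 : (m : ℚ) = 2 * (n : ℚ) := by
    have : ((n : ℤ) : ℚ) = (m : ℚ) / 2 := by simpa using hn
    rw [this]; ring
  have h4 : m = 2 * n := by exact_mod_cast h3
  rw [h4] at hm
  exact (Int.not_odd_iff_even.mpr (even_two_mul n)) hm

theorem zeta_mem_oddIntRing (p : ℕ) [NeZero p] : zeta p ∈ oddIntRing := by
  refine isIntegral_mem_oddIntRing ?_
  refine ⟨Polynomial.X ^ p - 1, Polynomial.monic_X_pow_sub_C 1 (NeZero.ne p), ?_⟩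
  simp [zeta_pow_self]

/-- **U2b-7**: for a prime `p ≡ 7 mod 8` no weight-2 form on `Γ₀(p)` has `q`-expansion
`c₀ + 8 (integral)` with `c₀` odd. -/
theorem noConstInt_two_three (p : ℕ) [hp : Fact p.Prime] (h8 : p % 8 = 7) :
    Fermat.Agent.S16.NoConstInt p 2 3 :=
  noConstInt_two_three_of_ring p h8 oddIntRing two_inv_notMem_oddIntRing (zeta_mem_oddIntRing p)
    inv_odd_mem_oddIntRing

end Fermat.Agent.S16.Conj.Expand
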